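/-
Shared library **ValConj** (helper168).  Mathlib only.

Conjugacy of the extensions of a valuation ring in a finite Galois-type situation:

  `L` a field, `G` a finite group acting on `L` by ring automorphisms, `V V' : ValuationSubring L`
  with the same `G`-fixed elements  ⟹  `∃ g : G, g • V = V'`.

(Used for decomposition-group arguments: Igusa for `Γ₁` (row S48, node IGUSA1 (b)), sheets of
split covers (cell A2), uniqueness of Gauss valuations.)

This file: the fixed part `W = V ∩ L^G`, the integral closure `C` of `W` in `L`, its `G`-action,
`Algebra.IsInvariant W C G`, and the "denominator trick" (`exists_mul_eq_of_mem`):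
every `x ∈ V` is `z / y` with `y, z ∈ C`, `y` a unit of `V`.
-/
import Mathlib.RingTheory.Valuation.LocalSubring
import Mathlib.RingTheory.Valuation.ValuationSubring
import Mathlib.RingTheory.Invariant.Basic
import Mathlib.FieldTheory.Fixed
import Mathlib.Algebra.Ring.Action.Invariant

set_option autoImplicit false

open scoped Pointwise

namespace Fermat.Agent.Lib.ValConj

variable {L : Type*} [Field L] (G : Type*) [Group G] [MulSemiringAction G L]

/-- `W = V ∩ L^G` as a subring of `L`. -/
def fixedPart (V : ValuationSubring L) : Subring L :=
  V.toSubring ⊓ (FixedPoints.subfield G L).toSubring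

variable {G}

theorem mem_fixedPart {V : ValuationSubring L} {x : L} :
    x ∈ fixedPart G V ↔ x ∈ V ∧ ∀ g : G, g • x = x := by
  unfold fixedPart
  rw [Subring.mem_inf]
  exact Iff.rfl

theorem fixedPart_le (V : ValuationSubring L) : fixedPart G V ≤ V.toSubring := inf_le_left

theorem smul_eq_of_mem_fixedPart {V : ValuationSubring L} {x : L} (hx : x ∈ fixedPart G V)
    (g : G) : g • x = x := (mem_fixedPart.1 hx).2 g

variable (G)

/-- The integral closure of `W = V ∩ L^G` in `L`, as a subring of `L`. -/
def intClosure (V : ValuationSubring L) : Subring L :=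
  (integralClosure (fixedPart G V) L).toSubring

variable {G}

theorem mem_intClosure {V : ValuationSubring L} {x : L} :
    x ∈ intClosure G V ↔ IsIntegral (fixedPart G V) x := Iff.rfl

/-- `C` is the intersection of the valuation subrings containing `W`. -/
theorem mem_intClosure_iff_forall {V : ValuationSubring L} {x : L} :
    x ∈ intClosure G V ↔
      ∀ U : ValuationSubring L, fixedPart G V ≤ U.toSubring → x ∈ U := by
  have h := iInf_valuationSubring_superset (K := L) (s := (fixedPart G V : Set L))
  have hcl : Subring.closure (fixedPart G V : Set L) = fixedPart G V := Subring.closure_eq _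
  constructor
  · intro hx U hU
    have hx' : x ∈ (integralClosure (Subring.closure (fixedPart G V : Set L)) L).toSubring := by
      rw [mem_intClosure] at hx
      obtain ⟨p, hp, hpx⟩ := hx
      refine ⟨p.map (Subring.inclusion (le_of_eq hcl.symm)), hp.map _, ?_⟩
      rw [← hpx, Polynomial.eval₂_map]
      rfl
    rw [← h] at hx'
    have := (Subring.mem_iInf.1 hx') ⟨U, fun y hy => hU hy⟩
    exact this
  · intro hx
    have hx' : x ∈ (⨅ U : {U : ValuationSubring L // (fixedPart G V : Set L) ⊆ U.toSubring},
        U.1.toSubring) := Subring.mem_iInf.2 fun U => hx U.1 (fun y hy => U.2 hy)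
    rw [h] at hx'
    obtain ⟨p, hp, hpx⟩ := hx'
    rw [mem_intClosure]
    refine ⟨p.map (Subring.inclusion (le_of_eq hcl)), hp.map _, ?_⟩
    rw [← hpx, Polynomial.eval₂_map]
    rfl

theorem fixedPart_le_intClosure (V : ValuationSubring L) : fixedPart G V ≤ intClosure G V := by
  intro x hx
  rw [mem_intClosure_iff_forall]
  exact fun U hU => hU hx

theorem intClosure_le (V : ValuationSubring L) : intClosure G V ≤ V.toSubring := by
  intro x hx
  exact (mem_intClosure_iff_forall.1 hx) V (fixedPart_le V)

/-- `C` is `G`-stable. -/
theorem smul_mem_intClosure {V : ValuationSubring L} (g : G) {x : L} (hx : x ∈ intClosure G V) :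
    g • x ∈ intClosure G V := by
  rw [mem_intClosure] at hx ⊢
  obtain ⟨p, hp, hpx⟩ := hx
  refine ⟨p, hp, ?_⟩
  have h1 : (MulSemiringAction.toRingHom G L g).comp (algebraMap (fixedPart G V) L)
      = algebraMap (fixedPart G V) L := by
    ext w
    exact smul_eq_of_mem_fixedPart w.2 g
  have h2 := congrArg (MulSemiringAction.toRingHom G L g) hpx
  rw [map_zero, Polynomial.hom_eval₂, h1] at h2
  exact h2

instance isInvariantSubring_intClosure (V : ValuationSubring L) :
    IsInvariantSubring G (intClosure G V) :=
  ⟨fun g _ hx => smul_mem_intClosure g hx⟩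

end Fermat.Agent.Lib.ValConj
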