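/-
Shared library **ValConj** (helper168), part 2.  Mathlib only.

The "denominator trick": `G` finite, `V : ValuationSubring L`, `W = V ∩ L^G`, `C` = integral
closure of `W` in `L`.  Every `x ∈ V` can be written `x = z / y` with `y, z ∈ C` and `y` a unit
of `V` (`exists_mul_mem_intClosure`).  Hence `V` is the localisation of `C` at its centre.
-/
import Fermat.Agent.Lib.ValConj.Basic

set_option autoImplicit false

open scoped Pointwise

namespace Fermat.Agent.Lib.ValConj

variable {L : Type*} [Field L] {G : Type*} [Group G] [MulSemiringAction G L]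

/-- Elementary form: coefficients `b i ∈ W` (`i ≤ n`), `∑ b i x^i = 0`, `s ≤ n` the last index with
`v (b s) = 1`.  Then `y = ∑_{k} b (s+k) x^k` is a unit of `V` and `y`, `x * y` lie in `C`. -/
theorem exists_mul_mem_of_relation {V : ValuationSubring L} {x : L} (hx : x ∈ V)
    (n s : ℕ) (hs : s ≤ n) (b : ℕ → L) (hb : ∀ i, b i ∈ fixedPart G V)
    (hrel : ∑ i ∈ Finset.range (n + 1), b i * x ^ i = 0)
    (hbs : V.valuation (b s) = 1)
    (hlt : ∀ i, s < i → i ≤ n → V.valuation (b i) < 1) :
    ∃ y : L, y ∈ intClosure G V ∧ x * y ∈ intClosure G V ∧ V.valuation y = 1 := by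
  obtain ⟨m, rfl⟩ := Nat.exists_eq_add_of_le hs
  set y : L := ∑ k ∈ Finset.range (m + 1), b (s + k) * x ^ k with hy
  -- the relation, split at `s`
  have hsplit : (∑ i ∈ Finset.range s, b i * x ^ i) + x ^ s * y = 0 := by
    rw [← hrel, show s + m + 1 = s + (m + 1) by ring, Finset.sum_range_add, hy, Finset.mul_sum]
    congr 1
    refine Finset.sum_congr rfl fun k _ => ?_
    rw [pow_add]; ring
  have hxv : V.valuation x ≤ 1 := (V.valuation_le_one_iff x).2 hx
  -- `v y = 1`
  have hvy : V.valuation y = 1 := by
    have h1 : y = b s + ∑ k ∈ Finset.range m, b (s + (k + 1)) * x ^ (k + 1) := by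
      rw [hy, Finset.sum_range_succ']
      simp only [add_zero, pow_zero, mul_one]
      rw [add_comm]
    have h2 : V.valuation (∑ k ∈ Finset.range m, b (s + (k + 1)) * x ^ (k + 1)) < 1 := by
      refine Valuation.map_sum_lt _ one_ne_zero fun k hk => ?_
      rw [Finset.mem_range] at hk
      rw [map_mul, map_pow]
      have h3 : V.valuation (b (s + (k + 1))) < 1 := hlt _ (by omega) (by omega)
      have h4 : V.valuation x ^ (k + 1) ≤ 1 := pow_le_one₀ zero_le hxv
      calc V.valuation (b (s + (k + 1))) * V.valuation x ^ (k + 1)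
          ≤ V.valuation (b (s + (k + 1))) * 1 := mul_le_mul_right h4 _
        _ = V.valuation (b (s + (k + 1))) := mul_one _
        _ < 1 := h3
    rw [h1, Valuation.map_add_eq_of_lt_left _ (by rw [hbs]; exact h2), hbs]
  refine ⟨y, ?_, ?_, hvy⟩
  · -- `y ∈ C`
    rw [mem_intClosure_iff_forall]
    intro U hU
    rcases U.mem_or_inv_mem x with hxU | hxU
    · exact Subring.sum_mem U.toSubring fun k _ =>
        U.mul_mem _ _ (hU (hb _)) (U.toSubring.pow_mem hxU k)
    · by_cases hx0 : x = 0
      · subst hx0
        exact Subring.sum_mem U.toSubring fun k _ =>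
          U.mul_mem _ _ (hU (hb _)) (U.toSubring.pow_mem U.zero_mem k)
      -- `y = -(∑_{i<s} b i x^i) / x^s`
      have h3 : y = -∑ i ∈ Finset.range s, b i * (x⁻¹) ^ (s - i) := by
        have hxs : x ^ s ≠ 0 := pow_ne_zero _ hx0
        apply mul_left_cancel₀ hxs
        rw [eq_neg_of_add_eq_zero_right hsplit, mul_neg, Finset.mul_sum]
        congr 1
        refine Finset.sum_congr rfl fun i hi => ?_
        rw [Finset.mem_range] at hi
        have : x ^ s = x ^ i * x ^ (s - i) := by rw [← pow_add]; congr 1; omega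
        rw [this, inv_pow]
        field_simp
      rw [h3]
      exact U.neg_mem _ (Subring.sum_mem U.toSubring fun i _ =>
        U.mul_mem _ _ (hU (hb _)) (U.toSubring.pow_mem hxU _))
  · -- `x * y ∈ C`
    rw [mem_intClosure_iff_forall]
    intro U hU
    rcases U.mem_or_inv_mem x with hxU | hxU
    · exact U.mul_mem _ _ hxU (Subring.sum_mem U.toSubring fun k _ =>
        U.mul_mem _ _ (hU (hb _)) (U.toSubring.pow_mem hxU k))
    · by_cases hx0 : x = 0
      · subst hx0
        rw [zero_mul]
        exact U.zero_mem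
      have h3 : x * y = -∑ i ∈ Finset.range s, b i * (x⁻¹) ^ (s - 1 - i) := by
        have hxs : x ^ s ≠ 0 := pow_ne_zero _ hx0
        apply mul_left_cancel₀ hxs
        have h4 : x ^ s * (x * y) = x * (x ^ s * y) := by ring
        rw [h4, eq_neg_of_add_eq_zero_right hsplit, mul_neg, mul_neg, Finset.mul_sum,
          Finset.mul_sum]
        congr 1
        refine Finset.sum_congr rfl fun i hi => ?_
        rw [Finset.mem_range] at hi
        have : x ^ s = x ^ (i + 1) * x ^ (s - 1 - i) := by rw [← pow_add]; congr 1; omega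
        rw [this, inv_pow, pow_succ]
        field_simp
      rw [h3]
      exact U.neg_mem _ (Subring.sum_mem U.toSubring fun i _ =>
        U.mul_mem _ _ (hU (hb _)) (U.toSubring.pow_mem hxU _))

/-- **Denominator trick.**  `G` finite: every `x ∈ V` is `z / y` with `y, z` in the integral
closure `C` of `V ∩ L^G` and `y` a unit of `V`. -/
theorem exists_mul_mem_intClosure [Finite G] {V : ValuationSubring L} {x : L} (hx : x ∈ V) :
    ∃ y : L, y ∈ intClosure G V ∧ x * y ∈ intClosure G V ∧ V.valuation y = 1 := by
  classical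
  cases nonempty_fintype G
  set P : Polynomial L := MulSemiringAction.charpoly G x with hP
  have hmonic : P.Monic := MulSemiringAction.monic_charpoly G x
  have heval : P.eval x = 0 := MulSemiringAction.eval_charpoly G x
  have hfix : ∀ (i : ℕ) (g : G), g • P.coeff i = P.coeff i := fun i g =>
    MulSemiringAction.smul_coeff_charpoly x i g
  set n := P.natDegree with hn
  -- index of maximal valuation
  obtain ⟨j, hj, hjmax⟩ := Finset.exists_max_image (Finset.range (n + 1))
    (fun i => V.valuation (P.coeff i)) ⟨n, Finset.self_mem_range_succ n⟩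
  have hjn : j ≤ n := by rw [Finset.mem_range] at hj; omega
  have hcn : P.coeff n = 1 := hmonic.coeff_natDegree
  have hvj : 1 ≤ V.valuation (P.coeff j) := by
    have := hjmax n (Finset.self_mem_range_succ n)
    simpa [hcn] using this
  have hj0 : P.coeff j ≠ 0 := by
    intro h0
    rw [h0, map_zero] at hvj
    exact absurd hvj (not_le.2 zero_lt_one)
  have hvj0 : V.valuation (P.coeff j) ≠ 0 := (Valuation.ne_zero_iff _).2 hj0
  -- scaled coefficients
  set b : ℕ → L := fun i => P.coeff i * (P.coeff j)⁻¹ with hbdef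
  have hbv : ∀ i, V.valuation (b i) ≤ 1 := by
    intro i
    simp only [hbdef, map_mul, map_inv₀]
    by_cases hi : i ∈ Finset.range (n + 1)
    · have := hjmax i hi
      calc V.valuation (P.coeff i) * (V.valuation (P.coeff j))⁻¹
          ≤ V.valuation (P.coeff j) * (V.valuation (P.coeff j))⁻¹ := mul_le_mul_left this _
        _ = 1 := mul_inv_cancel₀ hvj0
    · have hi' : n < i := by rw [Finset.mem_range] at hi; omega
      rw [Polynomial.coeff_eq_zero_of_natDegree_lt hi', map_zero, zero_mul]
      exact zero_le_one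
  have hb : ∀ i, b i ∈ fixedPart G V := by
    intro i
    rw [mem_fixedPart]
    refine ⟨(V.valuation_le_one_iff _).1 (hbv i), fun g => ?_⟩
    simp only [hbdef, smul_mul', smul_inv'', hfix]
  have hrel : ∑ i ∈ Finset.range (n + 1), b i * x ^ i = 0 := by
    have h1 : ∑ i ∈ Finset.range (n + 1), P.coeff i * x ^ i = 0 := by
      rw [← Polynomial.eval_eq_sum_range, heval]
    have h2 : ∑ i ∈ Finset.range (n + 1), b i * x ^ i
        = (P.coeff j)⁻¹ * ∑ i ∈ Finset.range (n + 1), P.coeff i * x ^ i := by
      rw [Finset.mul_sum]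
      refine Finset.sum_congr rfl fun i _ => ?_
      simp only [hbdef]; ring
    rw [h2, h1, mul_zero]
  -- last index with `v (b i) = 1`
  have hbj : V.valuation (b j) = 1 := by
    simp only [hbdef, map_mul, map_inv₀]
    exact mul_inv_cancel₀ hvj0
  set S : Finset ℕ := (Finset.range (n + 1)).filter (fun i => V.valuation (b i) = 1) with hS
  have hSne : S.Nonempty := ⟨j, by rw [hS, Finset.mem_filter]; exact ⟨hj, hbj⟩⟩
  set s := S.max' hSne with hsdef
  have hsS : s ∈ S := Finset.max'_mem S hSne
  rw [hS, Finset.mem_filter, Finset.mem_range] at hsS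
  refine exists_mul_mem_of_relation hx n s (by omega) b hb hrel hsS.2 ?_
  intro i hsi hin
  refine lt_of_le_of_ne (hbv i) fun h1 => ?_
  have hiS : i ∈ S := by
    rw [hS, Finset.mem_filter, Finset.mem_range]
    exact ⟨by omega, h1⟩
  have := Finset.le_max' S i hiS
  omega

end Fermat.Agent.Lib.ValConj
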