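/-
Shared library **ValConj** (helper168), part 3.  Mathlib only.

**Conjugacy theorem.**  `L` a field, `G` a finite group acting on `L` by ring automorphisms,
`V V' : ValuationSubring L` with the same `G`-fixed elements.  Then `g • V = V'` for some `g : G`.

  `exists_smul_eq_of_fixed_mem_iff`

Corollaries: `smul_eq_of_unique` (if `V ∩ L^H` has a unique extension to `L^B`-level, …) are left
to the clients; the decomposition-group formulation is `exists_mul_mem_stabilizer`
(`𝒢 = B · D` when the restrictions to `L^B` of all `𝒢`-conjugates of `V` coincide).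
-/
import Fermat.Agent.Lib.ValConj.Trick

set_option autoImplicit false
set_option linter.style.haveILetI false
set_option linter.unusedSectionVars false

open scoped Pointwise

namespace Fermat.Agent.Lib.ValConj

variable {L : Type*} [Field L] {G : Type*} [Group G] [MulSemiringAction G L]

theorem fixedPart_eq_of_iff {V V' : ValuationSubring L}
    (h : ∀ x : L, (∀ g : G, g • x = x) → (x ∈ V ↔ x ∈ V')) : fixedPart G V = fixedPart G V' := by
  ext x
  rw [mem_fixedPart, mem_fixedPart]
  constructor
  · rintro ⟨hx, hg⟩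
    exact ⟨(h x hg).1 hx, hg⟩
  · rintro ⟨hx, hg⟩
    exact ⟨(h x hg).2 hx, hg⟩

theorem intClosure_eq_of_fixedPart_eq {V V' : ValuationSubring L}
    (h : fixedPart G V = fixedPart G V') : intClosure G V = intClosure G V' := by
  ext x
  rw [mem_intClosure_iff_forall, mem_intClosure_iff_forall, h]

/-- For `c ∈ C`: `v c = 1` or `v c < 1`. -/
theorem valuation_le_one_of_mem_intClosure {V : ValuationSubring L} {c : L}
    (hc : c ∈ intClosure G V) : V.valuation c ≤ 1 :=
  (V.valuation_le_one_iff c).2 (intClosure_le V hc)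

/-- The centre of `V` on `C`, as a set: `{c ∈ C : v c < 1}`; it is `G`-equivariantly attached to
`V`.  Elementwise criterion for membership in `V` of a quotient. -/
theorem mem_of_mul_mem {V : ValuationSubring L} {x y : L} (hy : V.valuation y = 1)
    (hxy : x * y ∈ V) : x ∈ V := by
  rw [← V.valuation_le_one_iff] at hxy ⊢
  rwa [map_mul, hy, mul_one] at hxy

section main

variable [Finite G]

/-- Nonunits of `V` among the `G`-fixed elements are determined by the `G`-fixed part. -/
theorem valuation_lt_one_iff_of_fixed {V V' : ValuationSubring L}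
    (h : ∀ x : L, (∀ g : G, g • x = x) → (x ∈ V ↔ x ∈ V')) {a : L} (ha : ∀ g : G, g • a = a) :
    V.valuation a < 1 ↔ V'.valuation a < 1 := by
  by_cases ha0 : a = 0
  · subst ha0
    simp
  have hinv : ∀ g : G, g • a⁻¹ = a⁻¹ := fun g => by rw [smul_inv'', ha g]
  have key : ∀ U : ValuationSubring L, U.valuation a < 1 ↔ (a ∈ U ∧ a⁻¹ ∉ U) := by
    intro U
    rw [← U.valuation_le_one_iff, ← U.valuation_le_one_iff, map_inv₀]
    have hpos : U.valuation a ≠ 0 := (Valuation.ne_zero_iff _).2 ha0
    constructor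
    · intro hlt
      refine ⟨hlt.le, fun hle => ?_⟩
      have h1 : (1 : _) ≤ U.valuation a := by
        have := mul_le_mul_right hle (U.valuation a)
        rwa [mul_inv_cancel₀ hpos, mul_one] at this
      exact absurd hlt (not_lt.2 h1)
    · rintro ⟨hle, hn⟩
      refine lt_of_le_of_ne hle fun h1 => hn ?_
      rw [h1, inv_one]
  rw [key V, key V', h a ha, h a⁻¹ hinv]

/-- **Conjugacy of valuation subrings with the same fixed part.** -/
theorem exists_smul_eq_of_fixed_mem_iff (V V' : ValuationSubring L)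
    (h : ∀ x : L, (∀ g : G, g • x = x) → (x ∈ V ↔ x ∈ V')) : ∃ g : G, g • V = V' := by
  classical
  have hW : fixedPart G V = fixedPart G V' := fixedPart_eq_of_iff h
  have hC : intClosure G V = intClosure G V' := intClosure_eq_of_fixedPart_eq hW
  -- the rings
  let A : Subring L := fixedPart G V
  let B : Subring L := intClosure G V
  letI algAB : Algebra A B := (Subring.inclusion (fixedPart_le_intClosure (G := G) V)).toAlgebra
  letI actB : MulSemiringAction G B := IsInvariantSubring.toMulSemiringAction G B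
  have hsmulB : ∀ (g : G) (b : B), ((g • b : B) : L) = g • (b : L) := fun _ _ => rfl
  have halg : ∀ a : A, ((algebraMap A B a : B) : L) = (a : L) := fun _ => rfl
  haveI : SMulCommClass G A B := ⟨fun g a b => by
    apply Subtype.ext
    rw [hsmulB, Algebra.smul_def, Algebra.smul_def]
    show g • ((algebraMap A B a : B) * b : B).1 = ((algebraMap A B a : B) * (g • b : B) : B).1
    show g • (((algebraMap A B a : B) : L) * (b : L)) = ((algebraMap A B a : B) : L) * (g • (b : L))
    rw [smul_mul', halg, smul_eq_of_mem_fixedPart a.2 g]⟩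
  haveI : Algebra.IsInvariant A B G := ⟨fun b hb => by
    have hbfix : ∀ g : G, g • (b : L) = (b : L) := fun g => by
      rw [← hsmulB, hb g]
    have hbV : (b : L) ∈ V := intClosure_le V b.2
    exact ⟨⟨(b : L), mem_fixedPart.2 ⟨hbV, hbfix⟩⟩, Subtype.ext rfl⟩⟩
  -- the centres
  let ι : B →+* V := Subring.inclusion (intClosure_le (G := G) V)
  have hBV' : B ≤ V'.toSubring := le_trans hC.le (intClosure_le (G := G) V')
  let ι' : B →+* V' := Subring.inclusion hBV'
  let P : Ideal B := (IsLocalRing.maximalIdeal V).comap ι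
  let P' : Ideal B := (IsLocalRing.maximalIdeal V').comap ι'
  haveI hPprime : P.IsPrime := Ideal.comap_isPrime ι _
  haveI hP'prime : P'.IsPrime := Ideal.comap_isPrime ι' _
  have hmemP : ∀ b : B, b ∈ P ↔ V.valuation (b : L) < 1 := fun b => by
    show ι b ∈ IsLocalRing.maximalIdeal V ↔ _
    rw [V.valuation_lt_one_iff]
    rfl
  have hmemP' : ∀ b : B, b ∈ P' ↔ V'.valuation (b : L) < 1 := fun b => by
    show ι' b ∈ IsLocalRing.maximalIdeal V' ↔ _
    rw [V'.valuation_lt_one_iff]
    rfl
  have hunder : P.under A = P'.under A := by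
    ext a
    have h1 : a ∈ P.under A ↔ V.valuation (a : L) < 1 := hmemP (algebraMap A B a)
    have h2 : a ∈ P'.under A ↔ V'.valuation (a : L) < 1 := hmemP' (algebraMap A B a)
    rw [h1, h2]
    exact valuation_lt_one_iff_of_fixed h (fun g => smul_eq_of_mem_fixedPart a.2 g)
  obtain ⟨g, hg⟩ := Algebra.IsInvariant.exists_smul_of_under_eq A B G P P' hunder
  have hmemgP : ∀ b : B, b ∈ P' ↔ V.valuation (g⁻¹ • (b : L)) < 1 := fun b => by
    rw [hg, Ideal.mem_pointwise_smul_iff_inv_smul_mem, hmemP, hsmulB]
  refine ⟨g, ?_⟩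
  ext x
  rw [ValuationSubring.mem_pointwise_smul_iff_inv_smul_mem]
  constructor
  · -- `g⁻¹ x ∈ V ⟹ x ∈ V'`
    intro hx
    obtain ⟨y, hyC, hxyC, hvy⟩ := exists_mul_mem_intClosure (G := G) hx
    -- `g • y ∉ P'`, so `g • y` is a unit of `V'`
    have hgyC : g • y ∈ intClosure G V := smul_mem_intClosure g hyC
    have hgy : V'.valuation (g • y) = 1 := by
      have h1 : V'.valuation (g • y) ≤ 1 :=
        valuation_le_one_of_mem_intClosure (V := V') (hC.le hgyC)
      refine le_antisymm h1 (not_lt.1 fun hlt => ?_)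
      have h2 := (hmemgP ⟨g • y, hgyC⟩).1 ((hmemP' ⟨g • y, hgyC⟩).2 hlt)
      rw [inv_smul_smul, hvy] at h2
      exact lt_irrefl _ h2
    have hprod : x * (g • y) ∈ V' := by
      have h3 : g • (g⁻¹ • x * y) ∈ intClosure G V := smul_mem_intClosure g hxyC
      rw [smul_mul', smul_inv_smul] at h3
      exact intClosure_le V' (hC.le h3)
    exact mem_of_mul_mem hgy hprod
  · -- `x ∈ V' ⟹ g⁻¹ x ∈ V`
    intro hx
    obtain ⟨y, hyC', hxyC', hvy⟩ := exists_mul_mem_intClosure (G := G) hx
    have hyC : y ∈ intClosure G V := hC.ge hyC'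
    have hxyC : x * y ∈ intClosure G V := hC.ge hxyC'
    have hgyC : g⁻¹ • y ∈ intClosure G V := smul_mem_intClosure g⁻¹ hyC
    have hgy : V.valuation (g⁻¹ • y) = 1 := by
      have h1 : V.valuation (g⁻¹ • y) ≤ 1 := valuation_le_one_of_mem_intClosure hgyC
      refine le_antisymm h1 (not_lt.1 fun hlt => ?_)
      have h2 := (hmemP' ⟨y, hyC⟩).1 ((hmemgP ⟨y, hyC⟩).2 hlt)
      rw [hvy] at h2
      exact lt_irrefl _ h2
    have hprod : g⁻¹ • x * g⁻¹ • y ∈ V := by
      have h3 : g⁻¹ • (x * y) ∈ intClosure G V := smul_mem_intClosure g⁻¹ hxyC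
      rw [smul_mul'] at h3
      exact intClosure_le V h3
    exact mem_of_mul_mem hgy hprod

end main

end Fermat.Agent.Lib.ValConj

namespace Fermat.Agent.Lib.ValConj

variable {L : Type*} [Field L] {G : Type*} [Group G] [MulSemiringAction G L] [Finite G]

/-- **Decomposition-group form (`𝒢 = B · D`).**  Let `B ≤ G` be a subgroup such that every
`G`-conjugate of `V` has the same `B`-fixed elements as `V` (e.g. because `V ∩ L^B` has a unique
extension of the relevant kind).  Then every `g : G` is `b * d` with `b ∈ B` and `d • V = V`. -/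
theorem exists_mul_mem_stabilizer (V : ValuationSubring L) (B : Subgroup G)
    (h : ∀ (g : G) (x : L), (∀ b ∈ B, b • x = x) → (x ∈ V ↔ x ∈ g • V)) (g : G) :
    ∃ b ∈ B, ∃ d : G, d • V = V ∧ g = b * d := by
  have h' : ∀ x : L, (∀ b : B, b • x = x) → (x ∈ V ↔ x ∈ g • V) := fun x hx =>
    h g x (fun b hb => hx ⟨b, hb⟩)
  obtain ⟨b, hb⟩ := exists_smul_eq_of_fixed_mem_iff (G := B) V (g • V) h'
  refine ⟨b, b.2, (b : G)⁻¹ * g, ?_, by group⟩
  have hb' : (b : G) • V = g • V := hb
  rw [mul_smul, ← hb', inv_smul_smul]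

/-- Conjugates of elements of `B` stabilising `V`: if `u ∈ B`, `u • V = V` and `B` is such that
`G = B · D`, then for every `g : G` there is `d` in the stabiliser `D` with
`g * u * g⁻¹ = b * (d * u' * d⁻¹) * b⁻¹`; in particular if `U ≤ B ∩ D` is normal in `B`, the
stabiliser contains the conjugates `d⁻¹ U d`.  Elementwise statement used by IGUSA1 (c):
for `g = b * d`, `g⁻¹ * u * g` stabilises `V` as soon as `b⁻¹ * u * b` does. -/
theorem conj_smul_eq (V : ValuationSubring L) {b d u : G} (hd : d • V = V)
    (hu : (b⁻¹ * u * b) • V = V) : ((b * d)⁻¹ * u * (b * d)) • V = V := by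
  have hd' : d⁻¹ • V = V := by
    conv_lhs => rw [← hd]
    rw [inv_smul_smul]
  have : (b * d)⁻¹ * u * (b * d) = d⁻¹ * (b⁻¹ * u * b) * d := by group
  rw [this, mul_smul, mul_smul, hd, hu, hd']

end Fermat.Agent.Lib.ValConj
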